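import Fermat.Agent.S55.LCBridge
import Fermat.Agent.S55.LCBridgeCompat
import Fermat.Agent.CFT.LC.LowDegree
import Fermat.Agent.CFT.LC.Shapiro
import Fermat.Agent.TW.Euler.Ind.Contracts

/-!
# PROGRAM G (S56), block GW-Euler: contracts of the global Euler characteristic spine

Vocabulary: `GQ = Gal(ℚ̄/ℚ)`, `T : Finset Nat.Primes` with `pPrime p ∈ T`, `p` odd;
modules are `M : Rep (ZMod p) GQ`, finite-dimensional, smooth for `S55.globalLevel T`
(i.e. unramified outside `T`); cohomology is the level cohomology `(LC.cx hM).H n`, `n = 0, 1, 2`.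

* `hG hM n`     : `dim_{𝔽_p} Hⁿ(G_T, M)`;
* `hInf M`      : `dim_{𝔽_p} M^{c = 1}`, `c` = complex conjugation;
* `eulerDefect hM = h⁰ - h¹ + h² - hInf + dim M ∈ ℤ`;
* `FinOut`       : finiteness of `H¹`, `H²`;
* `H2SurjOut`    : (EU-2) right exactness of `H²(G_T, -)` (the SUM-FORMULA SQUEEZE);
* `BaseOut`      : (EU-4) the base case `eulerDefect (X ⊗ 𝔽_p[Ḡ/D]) = 0`;
* `EulerGlobOut` : (EU-OUT-G) `eulerDefect = 0` for all `M` (Tate's global Euler characteristic).
-/

set_option autoImplicit false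

open CategoryTheory Module ExtCitation
open Fermat.Agent.CFT Fermat.Agent.S55

namespace Fermat.Agent.TW.Euler

local notation "GQ" => (AlgebraicClosure ℚ ≃ₐ[ℚ] AlgebraicClosure ℚ)

section Defs

variable {p : ℕ} [Fact p.Prime] {T : Finset Nat.Primes} {M : Rep (ZMod p) GQ}

/-- `dim_{𝔽_p} Hⁿ(G_T, M)` (level cohomology). -/
noncomputable def hG (hM : IsSmooth (globalLevel T) M) (n : ℕ) : ℕ :=
  finrank (ZMod p) ((LC.cx hM).H n)

/-- `dim_{𝔽_p} M^{c = 1}`, `c` the complex conjugation. -/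
noncomputable def hInf (M : Rep (ZMod p) GQ) : ℕ :=
  finrank (ZMod p) (LinearMap.ker (M.ρ complexConjugation - 1))

/-- The defect of Tate's global Euler characteristic formula. -/
noncomputable def eulerDefect (hM : IsSmooth (globalLevel T) M) : ℤ :=
  (hG hM 0 : ℤ) - hG hM 1 + hG hM 2 - hInf M + finrank (ZMod p) M

end Defs

/-- **Finiteness** of `H¹(G_T, M)` and `H²(G_T, M)`. -/
def FinOut : Prop :=
  ∀ (p : ℕ) [Fact p.Prime], p ≠ 2 → ∀ (T : Finset Nat.Primes), pPrime p ∈ T →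
    ∀ (M : Rep (ZMod p) GQ) [FiniteDimensional (ZMod p) M] (hM : IsSmooth (globalLevel T) M),
      Module.Finite (ZMod p) ((LC.cx hM).H 1) ∧ Module.Finite (ZMod p) ((LC.cx hM).H 2)

/-- **(EU-2)** `H²(G_T, -)` is right exact on finite smooth `p`-torsion modules. -/
def H2SurjOut : Prop :=
  ∀ (p : ℕ) [Fact p.Prime], p ≠ 2 → ∀ (T : Finset Nat.Primes), pPrime p ∈ T →
    ∀ (B C : Rep (ZMod p) GQ) [FiniteDimensional (ZMod p) B] [FiniteDimensional (ZMod p) C]
      (hB : IsSmooth (globalLevel T) B) (hC : IsSmooth (globalLevel T) C) (g : B ⟶ C),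
      Function.Surjective g.hom → Function.Surjective ((LC.cxMap hB hC g).mapH 2)

/-- **(EU-OUT-G)** Tate's global Euler characteristic formula over `ℚ`. -/
def EulerGlobOut : Prop :=
  ∀ (p : ℕ) [Fact p.Prime], p ≠ 2 → ∀ (T : Finset Nat.Primes), pPrime p ∈ T →
    ∀ (M : Rep (ZMod p) GQ) [FiniteDimensional (ZMod p) M] (hM : IsSmooth (globalLevel T) M),
      Module.Finite (ZMod p) ((LC.cx hM).H 1) ∧ Module.Finite (ZMod p) ((LC.cx hM).H 2) ∧
        eulerDefect hM = 0

end Fermat.Agent.TW.Euler
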