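import Fermat.Agent.TW.Euler.Base.Arch
import Fermat.Agent.TW.Euler.Base.Dual.Main
import Fermat.Agent.TW.Euler.Base.CharRed.Main
import Fermat.Agent.TW.Euler.Base.ArithKum
import Fermat.Agent.TW.Euler.Base.ShInf.Out
import Fermat.Agent.TW.Euler.Base.Arith.MackeyInv
import Fermat.Agent.TW.Euler.Base.Arith.KumEig
import Fermat.Agent.TW.Euler.Enlarge.Assembly
import Fermat.Agent.TW.Euler.Fin.Main
import Fermat.Agent.TW.Euler.TUnit.UnitEigOut
import Fermat.Agent.TW.Euler.H2Surj.Main
import Fermat.Agent.TW.Euler.IndAsm.Final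
import Fermat.Agent.TW.GWB.H2F

/-!
# GW-Euler: the integration file

`eulerGlobOut_of_open_nodes`: Tate's global Euler characteristic formula from the nodes that are
still open (`Enlarge.LocalUnrOut` only); the closed nodes (`finOut`,
`h2SurjOut`, `inductionOut`, `archOut`, `dualOut`, `charRedOut`, `h2FormulaOut`, `ctExistsOut`,
`shInfOut`, `mackeyShaOut`, `kumShaOut`, `mackeyInvOut`, `unitEigOut`, `kumEigCycOut`, `enlargeOut_of_local`) are plugged in.
-/

set_option autoImplicit false

namespace Fermat.Agent.TW.Euler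

/-- **`ArithNodesOut`**: the arithmetic nodes of the base case. -/
theorem arithNodesOut : ArithNodesOut :=
  arithNodesOut_of_nodes_cyc Base.ctExistsOut Base.ShInf.shInfOut Base.ShInf.mackeyShaOut
    kumEigCycOut Base.kumShaOut TUnit.unitEigOut Base.Mackey0.mackeyInvOut

/-- **Status theorem**: the global Euler characteristic formula from the open nodes. -/
theorem eulerGlobOut_of_open_nodes (hloc : Enlarge.LocalUnrOut) : EulerGlobOut :=
  eulerGlobOut_of_nodes Fin.finOut H2Surj.h2SurjOut IndAsm.inductionOut
    (baseOut_of Fin.finOut H2Surj.h2SurjOut CharRed.charRedOut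
      (baseCharOut_of_nodes Fermat.Agent.TW.GWB.h2FormulaOut archOut dualOut
        arithNodesOut (Enlarge.enlargeOut_of_local hloc)))

end Fermat.Agent.TW.Euler
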