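import Fermat.Agent.TW.Euler.Basic

/-!
# GW-Euler: additivity of the Euler defect on short exact sequences

From the long exact sequence of level cohomology (`HyperExt/Shift.lean`), given finiteness of
`H¹`, `H²` and surjectivity of `H²(B) → H²(C)` (node EU-2).
-/

set_option autoImplicit false

open CategoryTheory Module ExtCitation
open Fermat.Agent.CFT Fermat.Agent.S55 HExt

namespace Fermat.Agent.TW.Euler

local notation "GQ" => (AlgebraicClosure ℚ ≃ₐ[ℚ] AlgebraicClosure ℚ)

section LinAlg

variable {k : Type*} [Field k]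

/-- Rank–nullity at an exact spot. -/
theorem finrank_eq_range_add_range {U V W : Type*} [AddCommGroup U] [Module k U]
    [AddCommGroup V] [Module k V] [AddCommGroup W] [Module k W] [FiniteDimensional k V]
    (f : U →ₗ[k] V) (g : V →ₗ[k] W) (h : Function.Exact f g) :
    finrank k V = finrank k (LinearMap.range f) + finrank k (LinearMap.range g) := by
  have h1 := LinearMap.finrank_range_add_finrank_ker g
  rw [(LinearMap.exact_iff.1 h)] at h1
  omega

theorem finrank_range_of_injective {U V : Type*} [AddCommGroup U] [Module k U]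
    [AddCommGroup V] [Module k V] (f : U →ₗ[k] V) (hf : Function.Injective f) :
    finrank k (LinearMap.range f) = finrank k U :=
  LinearMap.finrank_range_of_inj hf

theorem finrank_range_of_surjective {U V : Type*} [AddCommGroup U] [Module k U]
    [AddCommGroup V] [Module k V] (f : U →ₗ[k] V) (hf : Function.Surjective f) :
    finrank k (LinearMap.range f) = finrank k V := by
  rw [LinearMap.range_eq_top.2 hf, finrank_top]

/-- Dimensions in a short exact sequence. -/
theorem finrank_of_shortExact {U V W : Type*} [AddCommGroup U] [Module k U]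
    [AddCommGroup V] [Module k V] [AddCommGroup W] [Module k W] [FiniteDimensional k V]
    (f : U →ₗ[k] V) (g : V →ₗ[k] W) (hf : Function.Injective f) (hg : Function.Surjective g)
    (h : Function.Exact f g) : finrank k V = finrank k U + finrank k W := by
  rw [finrank_eq_range_add_range f g h, finrank_range_of_injective f hf,
    finrank_range_of_surjective g hg]

end LinAlg

section Inf

variable {p : ℕ} [Fact p.Prime] {A B C : Rep (ZMod p) GQ}

/-- `hInf` is additive on short exact sequences (`p` odd). -/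
theorem hInf_of_shortExact (hp2 : p ≠ 2) [FiniteDimensional (ZMod p) B] (f : A ⟶ B) (g : B ⟶ C)
    (hf : Function.Injective f.hom) (hg : Function.Surjective g.hom)
    (hfg : Function.Exact f.hom g.hom) : hInf B = hInf A + hInf C := by
  have hp : p.Prime := Fact.out
  have h2 : (2 : ZMod p) ≠ 0 := by
    intro h
    have : ((2 : ℕ) : ZMod p) = 0 := by exact_mod_cast h
    rw [ZMod.natCast_eq_zero_iff] at this
    exact hp2 ((Nat.prime_dvd_prime_iff_eq hp Nat.prime_two).1 this)
  set c := complexConjugation with hc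
  have hcc : ∀ (X : Rep (ZMod p) GQ) (x : X), X.ρ c (X.ρ c x) = x := fun X x => by
    rw [← Module.End.mul_apply, ← map_mul, complexConjugation_mul_self, map_one,
      Module.End.one_apply]
  have hmem : ∀ (X : Rep (ZMod p) GQ) (x : X),
      x ∈ LinearMap.ker (X.ρ c - 1) ↔ X.ρ c x = x := fun X x => by
    rw [LinearMap.mem_ker, LinearMap.sub_apply, Module.End.one_apply, sub_eq_zero]
  have hfc : ∀ a : A, f.hom (A.ρ c a) = B.ρ c (f.hom a) := fun a => Rep.hom_comm_apply f c a
  have hgc : ∀ b : B, g.hom (B.ρ c b) = C.ρ c (g.hom b) := fun b => Rep.hom_comm_apply g c b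
  let f' : ↥(LinearMap.ker (A.ρ c - 1)) →ₗ[ZMod p] ↥(LinearMap.ker (B.ρ c - 1)) :=
    (f.hom.toLinearMap.comp (Submodule.subtype _)).codRestrict _ (fun a => by
      rw [hmem]
      have ha := (hmem A a.1).1 a.2
      show B.ρ c (f.hom a.1) = f.hom a.1
      rw [← hfc, ha])
  let g' : ↥(LinearMap.ker (B.ρ c - 1)) →ₗ[ZMod p] ↥(LinearMap.ker (C.ρ c - 1)) :=
    (g.hom.toLinearMap.comp (Submodule.subtype _)).codRestrict _ (fun b => by
      rw [hmem]
      have hb := (hmem B b.1).1 b.2
      show C.ρ c (g.hom b.1) = g.hom b.1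
      rw [← hgc, hb])
  have hf' : Function.Injective f' := fun a a' h => by
    have := congrArg Subtype.val h
    exact Subtype.ext (hf this)
  have hg' : Function.Surjective g' := by
    rintro ⟨x, hx⟩
    rw [hmem] at hx
    obtain ⟨b, hb⟩ := hg x
    refine ⟨⟨(2 : ZMod p)⁻¹ • (b + B.ρ c b), ?_⟩, Subtype.ext ?_⟩
    · rw [hmem, map_smul, map_add, hcc, add_comm]
    · show g.hom ((2 : ZMod p)⁻¹ • (b + B.ρ c b)) = x
      rw [map_smul, map_add, hgc, hb, hx, ← two_smul (ZMod p) x, smul_smul, inv_mul_cancel₀ h2,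
        one_smul]
  have hex : Function.Exact f' g' := by
    intro b
    constructor
    · intro hb
      have hb0 : g.hom b.1 = 0 := congrArg Subtype.val hb
      obtain ⟨a, ha⟩ := (hfg b.1).1 hb0
      refine ⟨⟨a, ?_⟩, Subtype.ext ha⟩
      rw [hmem]
      apply hf
      rw [hfc, ha]
      exact (hmem B b.1).1 b.2
    · rintro ⟨a, rfl⟩
      exact Subtype.ext ((hfg _).2 ⟨a.1, rfl⟩)
  exact finrank_of_shortExact f' g' hf' hg' hex

end Inf

section Main

variable {p : ℕ} [Fact p.Prime] {T : Finset Nat.Primes} {A B C : Rep (ZMod p) GQ}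

/-- **Additivity of the Euler defect** on a short exact sequence, given finiteness of the `H¹`,
`H²` involved and surjectivity of `H²(B) → H²(C)`. -/
theorem eulerDefect_of_shortExact (hp2 : p ≠ 2)
    [FiniteDimensional (ZMod p) A] [FiniteDimensional (ZMod p) B] [FiniteDimensional (ZMod p) C]
    (hA : IsSmooth (globalLevel T) A) (hB : IsSmooth (globalLevel T) B)
    (hC : IsSmooth (globalLevel T) C) (f : A ⟶ B) (g : B ⟶ C)
    (hf : Function.Injective f.hom) (hg : Function.Surjective g.hom)
    (hfg : Function.Exact f.hom g.hom)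
    (finA : ∀ n, n = 1 ∨ n = 2 → Module.Finite (ZMod p) ((LC.cx hA).H n))
    (finB : ∀ n, n = 1 ∨ n = 2 → Module.Finite (ZMod p) ((LC.cx hB).H n))
    (finC : ∀ n, n = 1 ∨ n = 2 → Module.Finite (ZMod p) ((LC.cx hC).H n))
    (hsurj : Function.Surjective ((LC.cxMap hB hC g).mapH 2)) :
    eulerDefect hB = eulerDefect hA + eulerDefect hC := by
  have se := LC.cx_shortExact f g hA hB hC hf hg hfg
  have : Module.Finite (ZMod p) ((LC.cx hA).H 0) := Module.Finite.equiv (LC.h0Equiv hA).symm
  have : Module.Finite (ZMod p) ((LC.cx hB).H 0) := Module.Finite.equiv (LC.h0Equiv hB).symm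
  have : Module.Finite (ZMod p) ((LC.cx hC).H 0) := Module.Finite.equiv (LC.h0Equiv hC).symm
  have := finA 1 (Or.inl rfl)
  have := finA 2 (Or.inr rfl)
  have := finB 1 (Or.inl rfl)
  have := finB 2 (Or.inr rfl)
  have := finC 1 (Or.inl rfl)
  have := finC 2 (Or.inr rfl)
  have hdim := finrank_of_shortExact f.hom.toLinearMap g.hom.toLinearMap hf hg hfg
  have hinf := hInf_of_shortExact hp2 f g hf hg hfg
  -- the nine-term count
  have e0 : finrank (ZMod p) (LinearMap.range ((LC.cxMap hA hB f).mapH 0)) =
      finrank (ZMod p) ((LC.cx hA).H 0) := finrank_range_of_injective _ se.mapH_zero_injective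
  have eB0 : finrank (ZMod p) ((LC.cx hB).H 0) =
      finrank (ZMod p) (LinearMap.range ((LC.cxMap hA hB f).mapH 0)) +
        finrank (ZMod p) (LinearMap.range ((LC.cxMap hB hC g).mapH 0)) :=
    finrank_eq_range_add_range _ _ (se.exact_mapH_mapH 0)
  have eC0 : finrank (ZMod p) ((LC.cx hC).H 0) =
      finrank (ZMod p) (LinearMap.range ((LC.cxMap hB hC g).mapH 0)) +
        finrank (ZMod p) (LinearMap.range (se.δH 0)) :=
    finrank_eq_range_add_range _ _ (se.exact_mapH_δH 0)
  have eA1 : finrank (ZMod p) ((LC.cx hA).H 1) =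
      finrank (ZMod p) (LinearMap.range (se.δH 0)) +
        finrank (ZMod p) (LinearMap.range ((LC.cxMap hA hB f).mapH 1)) :=
    finrank_eq_range_add_range _ _ (se.exact_δH_mapH 0)
  have eB1 : finrank (ZMod p) ((LC.cx hB).H 1) =
      finrank (ZMod p) (LinearMap.range ((LC.cxMap hA hB f).mapH 1)) +
        finrank (ZMod p) (LinearMap.range ((LC.cxMap hB hC g).mapH 1)) :=
    finrank_eq_range_add_range _ _ (se.exact_mapH_mapH 1)
  have eC1 : finrank (ZMod p) ((LC.cx hC).H 1) =
      finrank (ZMod p) (LinearMap.range ((LC.cxMap hB hC g).mapH 1)) +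
        finrank (ZMod p) (LinearMap.range (se.δH 1)) :=
    finrank_eq_range_add_range _ _ (se.exact_mapH_δH 1)
  have eA2 : finrank (ZMod p) ((LC.cx hA).H 2) =
      finrank (ZMod p) (LinearMap.range (se.δH 1)) +
        finrank (ZMod p) (LinearMap.range ((LC.cxMap hA hB f).mapH 2)) :=
    finrank_eq_range_add_range _ _ (se.exact_δH_mapH 1)
  have eB2 : finrank (ZMod p) ((LC.cx hB).H 2) =
      finrank (ZMod p) (LinearMap.range ((LC.cxMap hA hB f).mapH 2)) +
        finrank (ZMod p) (LinearMap.range ((LC.cxMap hB hC g).mapH 2)) :=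
    finrank_eq_range_add_range _ _ (se.exact_mapH_mapH 2)
  have e2 : finrank (ZMod p) (LinearMap.range ((LC.cxMap hB hC g).mapH 2)) =
      finrank (ZMod p) ((LC.cx hC).H 2) := finrank_range_of_surjective _ hsurj
  unfold eulerDefect hG
  omega

end Main

end Fermat.Agent.TW.Euler
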