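import Fermat.Agent.TW.Euler.Additive
import Fermat.Agent.S55.LCHom
import Fermat.Agent.S55.CycloUnram

/-!
# GW-Euler (EU-6): assembly of Tate's global Euler characteristic formula

`eulerGlobOut_of_nodes : FinOut → H2SurjOut → InductionOut → BaseOut → EulerGlobOut`.

For a level `N` of `globalLevel T` the Euler defect of inflated modules is an additive invariant
`defectInv : AddInv (ZMod p) (GQ ⧸ N)`; the induction theorem (EU-1) reduces its vanishing to the
base case `BaseOut` (EU-4): the modules `X ⊗ 𝔽_p[Ḡ/D]`, `D ≤ Ḡ = GQ ⧸ N` cyclic of order prime to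
`p`, for levels `N` fixing the `p`-th roots of unity.
-/

set_option autoImplicit false

open CategoryTheory Module ExtCitation
open Fermat.Agent.CFT Fermat.Agent.S55 HExt

namespace Fermat.Agent.TW.Euler

local notation "Qb" => AlgebraicClosure ℚ
local notation "GQ" => (AlgebraicClosure ℚ ≃ₐ[ℚ] AlgebraicClosure ℚ)

/-- **(EU-4) The base case**: the Euler defect of `X ⊗ 𝔽_p[Ḡ/D]` vanishes, `Ḡ = GQ ⧸ N` for a
level `N` of `globalLevel T` fixing `μ_p`, `D ≤ Ḡ` cyclic of order prime to `p`. -/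
def BaseOut : Prop :=
  ∀ (p : ℕ) [Fact p.Prime], p ≠ 2 → ∀ (T : Finset Nat.Primes), pPrime p ∈ T →
    ∀ (N : Subgroup GQ) [N.Normal] (hN : (globalLevel T).IsLevel N),
      (∀ g ∈ N, ∀ ζ : Qb, ζ ^ p = 1 → g ζ = ζ) →
      ∀ (D : Subgroup (GQ ⧸ N)), IsCyclic D → ¬ p ∣ Nat.card D →
      ∀ (V : Type) [AddCommGroup V] [Module (ZMod p) V] [Module.Finite (ZMod p) V]
        (ρ : Representation (ZMod p) (GQ ⧸ N) V),
        eulerDefect (isSmooth_inflRep N hN (permTwist ρ ((GQ ⧸ N) ⧸ D))) = 0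

section Inv

variable {p : ℕ} [Fact p.Prime] {T : Finset Nat.Primes}

/-- The isomorphism of inflated modules induced by an equivariant linear equivalence. -/
noncomputable def inflRepIso (N : Subgroup GQ) [N.Normal] {V W : Type} [AddCommGroup V]
    [Module (ZMod p) V] [AddCommGroup W] [Module (ZMod p) W]
    (ρ : Representation (ZMod p) (GQ ⧸ N) V) (σ : Representation (ZMod p) (GQ ⧸ N) W)
    (e : V ≃ₗ[ZMod p] W) (he : ∀ g v, e (ρ g v) = σ g (e v)) : inflRep N ρ ≅ inflRep N σ :=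
  Rep.mkIso (Representation.Equiv.mk e fun _ => LinearMap.ext fun v => he _ v)

/-- The morphism of inflated modules induced by an equivariant linear map. -/
noncomputable def inflRepHom (N : Subgroup GQ) [N.Normal] {V W : Type} [AddCommGroup V]
    [Module (ZMod p) V] [AddCommGroup W] [Module (ZMod p) W]
    (ρ : Representation (ZMod p) (GQ ⧸ N) V) (σ : Representation (ZMod p) (GQ ⧸ N) W)
    (f : V →ₗ[ZMod p] W) (hf : ∀ g v, f (ρ g v) = σ g (f v)) : inflRep N ρ ⟶ inflRep N σ :=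
  Rep.ofHom ⟨f, fun _ => LinearMap.ext fun v => hf _ v⟩

lemma inflRepHom_hom_apply (N : Subgroup GQ) [N.Normal] {V W : Type} [AddCommGroup V]
    [Module (ZMod p) V] [AddCommGroup W] [Module (ZMod p) W]
    (ρ : Representation (ZMod p) (GQ ⧸ N) V) (σ : Representation (ZMod p) (GQ ⧸ N) W)
    (f : V →ₗ[ZMod p] W) (hf : ∀ g v, f (ρ g v) = σ g (f v)) (v : V) :
    (inflRepHom N ρ σ f hf).hom v = f v := rfl

/-- The Euler defect of inflated modules as an additive invariant of `GQ ⧸ N`. -/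
noncomputable def defectInv (hp2 : p ≠ 2) (hpT : pPrime p ∈ T) (hfin : FinOut)
    (hsurj : H2SurjOut) (N : Subgroup GQ) [N.Normal] (hN : (globalLevel T).IsLevel N) :
    AddInv (ZMod p) (GQ ⧸ N) where
  val V _ _ _ ρ := eulerDefect (isSmooth_inflRep N hN ρ)
  val_congr ρ σ e he :=
    eulerDefect_congr _ _ (inflRepIso N ρ σ e he)
  val_exact ρ₁ ρ₂ ρ₃ f h hf hh finj hsur hex := by
    have fin : ∀ {V : Type} [AddCommGroup V] [Module (ZMod p) V] [Module.Finite (ZMod p) V]
        (ρ : Representation (ZMod p) (GQ ⧸ N) V) (n : ℕ), n = 1 ∨ n = 2 →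
        Module.Finite (ZMod p) ((LC.cx (isSmooth_inflRep (T := T) N hN ρ)).H n) := by
      intro V _ _ _ ρ n hn
      obtain ⟨h1, h2⟩ := hfin p hp2 T hpT (inflRep N ρ) (isSmooth_inflRep N hN ρ)
      rcases hn with rfl | rfl
      · exact h1
      · exact h2
    exact eulerDefect_of_shortExact hp2 _ _ _ (inflRepHom N ρ₁ ρ₂ f hf)
      (inflRepHom N ρ₂ ρ₃ h hh) finj hsur hex (fin ρ₁) (fin ρ₂) (fin ρ₃)
      (hsurj p hp2 T hpT _ _ _ _ (inflRepHom N ρ₂ ρ₃ h hh) hsur)

end Inv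

end Fermat.Agent.TW.Euler

namespace Fermat.Agent.TW.Euler

local notation "Qb" => AlgebraicClosure ℚ
local notation "GQ" => (AlgebraicClosure ℚ ≃ₐ[ℚ] AlgebraicClosure ℚ)

section Final

variable {p : ℕ} [Fact p.Prime] {T : Finset Nat.Primes}

/-- A level of `globalLevel T` (`p ∈ T`) fixing the `p`-th roots of unity. -/
theorem exists_level_fixing_roots (hpT : pPrime p ∈ T) :
    ∃ N, (globalLevel T).IsLevel N ∧ ∀ g ∈ N, ∀ ζ : Qb, ζ ^ p = 1 → g ζ = ζ := by
  obtain ⟨F, hF, h⟩ := exists_isUnramifiedOutside_cycloChar_eq_one p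
  have hFT : F.IsUnramifiedOutside T := hF.mono (Finset.singleton_subset_iff.2 hpT)
  obtain ⟨E, hFE, -, hE, hgal⟩ := exists_isGalois_isUnramifiedOutside_ge hFT hFT
  refine ⟨_, ⟨E, hgal, hE, rfl⟩, fun g hg => ?_⟩
  exact (cycloChar_eq_one_iff p g).1 (h g (IntermediateField.fixingSubgroup_antitone hFE hg))

/-- **(EU-6) Tate's global Euler characteristic formula from its nodes.** -/
theorem eulerGlobOut_of_nodes (hfin : FinOut) (hsurj : H2SurjOut) (hind : InductionOut)
    (hbase : BaseOut) : EulerGlobOut := by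
  intro p _ hp2 T hpT M _ hM
  obtain ⟨h1, h2⟩ := hfin p hp2 T hpT M hM
  refine ⟨h1, h2, ?_⟩
  obtain ⟨N₀, hN₀, hM₀⟩ := exists_level_rho_eq_one_of_isSmooth hM
  obtain ⟨N₁, hN₁, hζ₁⟩ := exists_level_fixing_roots (p := p) hpT
  obtain ⟨N, hN, hle⟩ := (globalLevel T).directed hN₀ hN₁
  have : N.Normal := (globalLevel T).normal hN
  have : N.FiniteIndex := (globalLevel T).finiteIndex hN
  have : Finite (GQ ⧸ N) := Subgroup.finite_quotient_of_finiteIndex
  have hker : N ≤ (M.ρ : GQ →* (M →ₗ[ZMod p] M)).ker := fun g hg =>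
    MonoidHom.mem_ker.2 (hM₀ g ((hle.trans inf_le_left) hg))
  let ρM : Representation (ZMod p) (GQ ⧸ N) M := QuotientGroup.lift N M.ρ hker
  have hρM : ∀ g : GQ, ρM (QuotientGroup.mk g) = M.ρ g := fun g => rfl
  let e : M ≅ inflRep N ρM :=
    Rep.mkIso (ρ := M.ρ) (σ := ρM.comp (QuotientGroup.mk' N))
      (Representation.Equiv.mk (LinearEquiv.refl (ZMod p) M) fun g => LinearMap.ext fun v => rfl)
  rw [eulerDefect_congr hM (isSmooth_inflRep N hN ρM) e]
  refine hind p (ZMod p) (GQ ⧸ N) (defectInv hp2 hpT hfin hsurj N hN) (fun D hD hpD V _ _ _ ρ => ?_)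
    M ρM
  exact hbase p hp2 T hpT N hN (fun g hg => hζ₁ g ((hle.trans inf_le_right) hg)) D hD hpD V ρ

end Final

end Fermat.Agent.TW.Euler
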