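import Fermat.Agent.TW.Euler.Contracts
import Fermat.Agent.CFT.HyperExt.LCExt

/-!
# GW-Euler: isomorphism invariance of the Euler defect, inflation from finite quotients
-/

set_option autoImplicit false

open CategoryTheory Module ExtCitation
open Fermat.Agent.CFT Fermat.Agent.S55 HExt

namespace Fermat.Agent.TW.Euler

local notation "GQ" => (AlgebraicClosure ℚ ≃ₐ[ℚ] AlgebraicClosure ℚ)

section Iso

variable {k G : Type} [CommRing k] [Group G] {L : LevelStructure G} {A B : Rep.{0} k G}

/-- `mapH` of an identity-on-elements morphism is the identity up to `mk_congr`. -/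
lemma mapH_cxMap_comp (hA : IsSmooth L A) (hB : IsSmooth L B) {C : Rep.{0} k G}
    (hC : IsSmooth L C) (f : A ⟶ B) (g : B ⟶ C) (n : ℕ) (c : (LC.cx hA).H n) :
    (LC.cxMap hA hC (f ≫ g)).mapH n c =
      (LC.cxMap hB hC g).mapH n ((LC.cxMap hA hB f).mapH n c) := by
  induction c using Cx.H.induction_on with
  | _ z hz =>
    rw [Cx.Hom.mapH_mk, Cx.Hom.mapH_mk, Cx.Hom.mapH_mk]
    exact Cx.H.mk_congr (LC.cxMap_comp_apply hA hB hC f g n z) _

lemma mapH_cxMap_id (hA : IsSmooth L A) (n : ℕ) (c : (LC.cx hA).H n) :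
    (LC.cxMap hA hA (𝟙 A)).mapH n c = c := by
  induction c using Cx.H.induction_on with
  | _ z hz =>
    rw [Cx.Hom.mapH_mk]
    exact Cx.H.mk_congr (LC.cxMap_id_apply _ n z) _

/-- An isomorphism of smooth modules induces a bijection on level cohomology. -/
theorem mapH_bijective_of_iso (hA : IsSmooth L A) (hB : IsSmooth L B) (e : A ≅ B) (n : ℕ) :
    Function.Bijective ((LC.cxMap hA hB e.hom).mapH n) := by
  refine Function.bijective_iff_has_inverse.2 ⟨(LC.cxMap hB hA e.inv).mapH n, fun c => ?_,
    fun c => ?_⟩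
  · rw [← mapH_cxMap_comp hA hB hA, e.hom_inv_id]
    exact mapH_cxMap_id hA n c
  · rw [← mapH_cxMap_comp hB hA hB, e.inv_hom_id]
    exact mapH_cxMap_id hB n c

/-- The linear equivalence on level cohomology induced by an isomorphism. -/
noncomputable def mapHEquiv (hA : IsSmooth L A) (hB : IsSmooth L B) (e : A ≅ B) (n : ℕ) :
    (LC.cx hA).H n ≃ₗ[k] (LC.cx hB).H n :=
  LinearEquiv.ofBijective _ (mapH_bijective_of_iso hA hB e n)

end Iso

section Defect

variable {p : ℕ} [Fact p.Prime] {T : Finset Nat.Primes} {A B : Rep (ZMod p) GQ}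

theorem hG_congr (hA : IsSmooth (globalLevel T) A) (hB : IsSmooth (globalLevel T) B) (e : A ≅ B)
    (n : ℕ) : hG hA n = hG hB n :=
  LinearEquiv.finrank_eq (mapHEquiv hA hB e n)

theorem hInf_congr (e : A ≅ B) : hInf A = hInf B := by
  have hcomm : ∀ a : A, e.hom.hom (A.ρ complexConjugation a) =
      B.ρ complexConjugation (e.hom.hom a) := fun a => Rep.hom_comm_apply e.hom _ a
  have hcomm' : ∀ b : B, e.inv.hom (B.ρ complexConjugation b) =
      A.ρ complexConjugation (e.inv.hom b) := fun b => Rep.hom_comm_apply e.inv _ b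
  let E : ↥(LinearMap.ker (A.ρ complexConjugation - 1)) ≃ₗ[ZMod p]
      ↥(LinearMap.ker (B.ρ complexConjugation - 1)) :=
    { toFun := fun a => ⟨e.hom.hom a.1, by
        have ha := a.2
        rw [LinearMap.mem_ker, LinearMap.sub_apply, Module.End.one_apply, sub_eq_zero] at ha ⊢
        rw [← hcomm, ha]⟩
      invFun := fun b => ⟨e.inv.hom b.1, by
        have hb := b.2
        rw [LinearMap.mem_ker, LinearMap.sub_apply, Module.End.one_apply, sub_eq_zero] at hb ⊢
        rw [← hcomm', hb]⟩
      map_add' := fun a a' => Subtype.ext (by simp)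
      map_smul' := fun c a => Subtype.ext (by simp)
      left_inv := fun a => Subtype.ext (Rep.inv_hom_apply _ _ e a.1)
      right_inv := fun b => Subtype.ext (Rep.inv_hom_apply _ _ e.symm b.1) }
  exact LinearEquiv.finrank_eq E

theorem finrank_congr_iso (e : A ≅ B) : finrank (ZMod p) A = finrank (ZMod p) B := by
  let E : A ≃ₗ[ZMod p] B :=
    { toFun := fun a => e.hom.hom a
      invFun := fun b => e.inv.hom b
      map_add' := fun a a' => by simp
      map_smul' := fun c a => by simp
      left_inv := fun a => Rep.inv_hom_apply _ _ e a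
      right_inv := fun b => Rep.inv_hom_apply _ _ e.symm b }
  exact LinearEquiv.finrank_eq E

/-- The Euler defect is invariant under isomorphism. -/
theorem eulerDefect_congr (hA : IsSmooth (globalLevel T) A) (hB : IsSmooth (globalLevel T) B)
    (e : A ≅ B) : eulerDefect hA = eulerDefect hB := by
  unfold eulerDefect
  rw [hG_congr hA hB e 0, hG_congr hA hB e 1, hG_congr hA hB e 2, hInf_congr e,
    finrank_congr_iso e]

end Defect

section Infl

variable {p : ℕ} [Fact p.Prime] {T : Finset Nat.Primes}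

/-- Inflation of a representation of `GQ ⧸ N` to `GQ`. -/
noncomputable def inflRep (N : Subgroup GQ) [N.Normal] {V : Type} [AddCommGroup V]
    [Module (ZMod p) V] (ρ : Representation (ZMod p) (GQ ⧸ N) V) : Rep (ZMod p) GQ :=
  Rep.of (ρ.comp (QuotientGroup.mk' N))

lemma inflRep_ρ_apply (N : Subgroup GQ) [N.Normal] {V : Type} [AddCommGroup V]
    [Module (ZMod p) V] (ρ : Representation (ZMod p) (GQ ⧸ N) V) (g : GQ) (v : V) :
    (inflRep N ρ).ρ g v = ρ (QuotientGroup.mk g) v := rfl

instance (N : Subgroup GQ) [N.Normal] {V : Type} [AddCommGroup V]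
    [Module (ZMod p) V] [Module.Finite (ZMod p) V] (ρ : Representation (ZMod p) (GQ ⧸ N) V) :
    Module.Finite (ZMod p) (inflRep N ρ) :=
  inferInstanceAs (Module.Finite (ZMod p) V)

theorem isSmooth_inflRep (N : Subgroup GQ) [N.Normal] (hN : (globalLevel T).IsLevel N)
    {V : Type} [AddCommGroup V] [Module (ZMod p) V] (ρ : Representation (ZMod p) (GQ ⧸ N) V) :
    IsSmooth (globalLevel T) (inflRep N ρ) := by
  intro a
  refine ⟨N, hN, fun g hg => ?_⟩
  rw [inflRep_ρ_apply, (QuotientGroup.eq_one_iff g).2 hg, map_one, Module.End.one_apply]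

end Infl

end Fermat.Agent.TW.Euler
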