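/-
Program G (S56), block GW-Euler, node EU-1(b) (helper18).
In characteristic `p` the characteristic polynomial of `g` on a finite-dimensional module only
depends on the `p`-regular part of `g`.

* `expand_charpoly_pow_char_pow` : `expand (p^m) (charpoly (M^(p^m))) = (charpoly M)^(p^m)`.
* `matrix_charpoly_mul_of_commute_of_pow_eq_one` : `M`, `U` commuting, `U^(p^m) = 1`
  ⇒ `charpoly (M * U) = charpoly M`.
* `end_charpoly_mul_of_commute_of_pow_eq_one` : the same for endomorphisms of a finite free module.
* `regPart p g`, with `regPart_mul_unipPart`, `unipPart_pow`, `orderOf_regPart_coprime`,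
  `charpoly_map_eq_charpoly_map_regPart`.
Mathlib only.
-/
import Mathlib

set_option autoImplicit false

namespace Fermat.Agent.TW.Euler.CharpolyReg

open Polynomial Matrix

section MatrixPart

variable {k : Type*} [Field k] (p : ℕ) [Fact p.Prime] [CharP k p]
variable {n : Type*} [DecidableEq n] [Fintype n]

/-- In characteristic `p`, `charpoly (M ^ q) (X ^ q) = (charpoly M) ^ q` for `q = p ^ m`. -/
theorem expand_charpoly_pow_char_pow (M : Matrix n n k) (m : ℕ) :
    expand k (p ^ m) (M ^ (p ^ m)).charpoly = M.charpoly ^ (p ^ m) := by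
  cases (isEmpty_or_nonempty n).symm
  · unfold charpoly
    rw [AlgHom.map_det, ← coe_detMonoidHom, ← (detMonoidHom : Matrix n n k[X] →* k[X]).map_pow]
    apply congr_arg det
    refine matPolyEquiv.injective ?_
    rw [map_pow, matPolyEquiv_charmatrix, sub_pow_char_pow_of_commute, ← C_pow]
    · exact (id (matPolyEquiv_eq_X_pow_sub_C (p ^ m) M) :)
    · exact (C M).commute_X
  · simp [Matrix.charpoly, Matrix.det_isEmpty]

/-- `p ^ m`-th roots are unique in `k[X]`, `char k = p`. -/
theorem poly_eq_of_pow_char_pow_eq {f g : k[X]} (m : ℕ) (h : f ^ (p ^ m) = g ^ (p ^ m)) :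
    f = g := by
  have hinj := iterateFrobenius_inj k[X] p m
  apply hinj
  simpa [iterateFrobenius_def] using h

/-- Multiplying by a commuting matrix of `p`-power order does not change the characteristic
polynomial in characteristic `p`. -/
theorem matrix_charpoly_mul_of_commute_of_pow_eq_one (M U : Matrix n n k) (h : Commute M U)
    (m : ℕ) (hU : U ^ (p ^ m) = 1) : (M * U).charpoly = M.charpoly := by
  apply poly_eq_of_pow_char_pow_eq p m
  rw [← expand_charpoly_pow_char_pow, ← expand_charpoly_pow_char_pow, h.mul_pow, hU, mul_one]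

end MatrixPart

section EndPart

variable {k : Type*} [Field k] (p : ℕ) [Fact p.Prime] [CharP k p]
variable {V : Type*} [AddCommGroup V] [Module k V] [Module.Finite k V]

/-- Multiplying by a commuting endomorphism of `p`-power order does not change the characteristic
polynomial in characteristic `p`. -/
theorem end_charpoly_mul_of_commute_of_pow_eq_one (f u : Module.End k V) (h : Commute f u)
    (m : ℕ) (hu : u ^ (p ^ m) = 1) : (f * u).charpoly = f.charpoly := by
  classical
  let b := Module.finBasis k V
  let e := LinearMap.toMatrixAlgEquiv b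
  have he : ∀ g : Module.End k V, LinearMap.toMatrix b b g = e g := fun _ => rfl
  rw [← LinearMap.charpoly_toMatrix (f * u) b, ← LinearMap.charpoly_toMatrix f b, he, he,
    map_mul]
  apply matrix_charpoly_mul_of_commute_of_pow_eq_one p _ _ _ m
  · rw [← map_pow, hu, map_one]
  · show _ * _ = _ * _
    rw [← map_mul, ← map_mul, h.eq]

end EndPart

section GroupPart

variable {G : Type*} [Group G] (p : ℕ) [hp : Fact p.Prime]

/-- The exponent `e` with `g ^ e` the `p`-regular part of an element of order `N`:
`e ≡ 0 mod p^(v_p N)`, `e ≡ 1 mod N / p^(v_p N)`. -/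
noncomputable def regExp (N : ℕ) : ℕ :=
  p ^ N.factorization p * ((p ^ N.factorization p : ZMod (N / p ^ N.factorization p))⁻¹).val

/-- The `p`-regular part of `g` (a power of `g`). -/
noncomputable def regPart (g : G) : G := g ^ regExp p (orderOf g)

/-- The `p`-unipotent part of `g` (a power of `g`). -/
noncomputable def unipPart (g : G) : G := g * (regPart p g)⁻¹

omit hp in
theorem regPart_mem_zpowers (g : G) : regPart p g ∈ Subgroup.zpowers g :=
  Subgroup.npow_mem_zpowers g _

omit hp in
theorem regPart_mul_unipPart (g : G) : regPart p g * unipPart p g = g := by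
  unfold unipPart regPart
  have : Commute (g ^ regExp p (orderOf g)) g := (Commute.refl g).pow_left _
  rw [← mul_assoc, this.eq, mul_assoc, mul_inv_cancel, mul_one]

omit hp in
theorem commute_regPart_unipPart (g : G) : Commute (regPart p g) (unipPart p g) := by
  unfold unipPart regPart
  have h1 : Commute (g ^ regExp p (orderOf g)) g := (Commute.refl g).pow_left _
  exact h1.mul_right (Commute.inv_right (Commute.refl _))

theorem regExp_cast_eq_one (N : ℕ) (hN : 0 < N) :
    (regExp p N : ZMod (N / p ^ N.factorization p)) = 1 := by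
  unfold regExp
  set r := N / p ^ N.factorization p with hr
  have hcop : Nat.Coprime (p ^ N.factorization p) r :=
    (Nat.coprime_ordCompl hp.out hN.ne').pow_left _
  have : NeZero r := ⟨(Nat.ordCompl_pos p hN.ne').ne'⟩
  rw [Nat.cast_mul, ZMod.natCast_zmod_val]
  have := ZMod.coe_mul_inv_eq_one _ hcop
  rw [Nat.cast_pow] at this
  rw [Nat.cast_pow]
  exact this

theorem regExp_modEq_one (N : ℕ) (hN : 0 < N) :
    regExp p N ≡ 1 [MOD N / p ^ N.factorization p] := by
  rw [← ZMod.natCast_eq_natCast_iff, regExp_cast_eq_one p N hN, Nat.cast_one]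

omit hp in
theorem pow_dvd_regExp (N : ℕ) : p ^ N.factorization p ∣ regExp p N :=
  Dvd.intro _ rfl

omit hp in
/-- The regular part has order prime to `p`. -/
theorem regPart_pow_ordCompl (g : G) :
    regPart p g ^ (orderOf g / p ^ (orderOf g).factorization p) = 1 := by
  unfold regPart
  obtain ⟨c, hc⟩ := pow_dvd_regExp p (orderOf g)
  rw [← pow_mul, hc, mul_right_comm, Nat.ordProj_mul_ordCompl_eq_self, pow_mul,
    pow_orderOf_eq_one, one_pow]

theorem orderOf_regPart_coprime (g : G) (hg : IsOfFinOrder g) :
    (orderOf (regPart p g)).Coprime p := by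
  have hN : 0 < orderOf g := hg.orderOf_pos
  have h1 : orderOf (regPart p g) ∣ orderOf g / p ^ (orderOf g).factorization p :=
    orderOf_dvd_of_pow_eq_one (regPart_pow_ordCompl p g)
  exact ((Nat.coprime_ordCompl hp.out hN.ne').symm.coprime_dvd_left h1)

/-- The unipotent part has `p`-power order. -/
theorem unipPart_pow (g : G) (hg : IsOfFinOrder g) :
    unipPart p g ^ (p ^ (orderOf g).factorization p) = 1 := by
  have hN : 0 < orderOf g := hg.orderOf_pos
  set N := orderOf g with hNdef
  set v := N.factorization p
  -- work with integer exponents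
  have hz : unipPart p g = g ^ ((1 : ℤ) - regExp p N) := by
    unfold unipPart regPart
    rw [_root_.zpow_sub, zpow_one, zpow_natCast]
  rw [hz, ← zpow_natCast, ← _root_.zpow_mul]
  -- the exponent is divisible by N
  have hmod := regExp_modEq_one p N hN
  have h1 : ((N / p ^ v : ℕ) : ℤ) ∣ (1 : ℤ) - regExp p N := by
    have := (Nat.modEq_iff_dvd.mp hmod)
    simpa using this
  obtain ⟨c, hc⟩ := h1
  have hNeq : (N : ℤ) = (p ^ v : ℕ) * (N / p ^ v : ℕ) := by
    exact_mod_cast (Nat.ordProj_mul_ordCompl_eq_self N p).symm
  have : ((1 : ℤ) - regExp p N) * ((p ^ v : ℕ) : ℤ) = (N : ℤ) * c := by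
    rw [hc, hNeq]; ring
  rw [this, _root_.zpow_mul, zpow_natCast, pow_orderOf_eq_one, _root_.one_zpow]

end GroupPart

section RepPart

variable {G : Type*} [Group G] (p : ℕ) [hp : Fact p.Prime]
variable {k : Type*} [Field k] [CharP k p]
variable {V : Type*} [AddCommGroup V] [Module k V] [Module.Finite k V]

/-- EU-1(b): in characteristic `p` the characteristic polynomial of `ρ g` equals that of
`ρ (regPart p g)`, for every monoid hom `ρ : G →* End_k V`, `V` finite-dimensional. -/
theorem charpoly_map_eq_charpoly_map_regPart (ρ : G →* Module.End k V) (g : G)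
    (hg : IsOfFinOrder g) : (ρ g).charpoly = (ρ (regPart p g)).charpoly := by
  have h1 : ρ g = ρ (regPart p g) * ρ (unipPart p g) := by
    rw [← map_mul, regPart_mul_unipPart]
  rw [h1]
  apply end_charpoly_mul_of_commute_of_pow_eq_one p _ _ _ ((orderOf g).factorization p)
  · rw [← map_pow, unipPart_pow p g hg, map_one]
  · exact (commute_regPart_unipPart p g).map ρ

/-- Existential form, uniform in the representation. -/
theorem exists_regular_forall_charpoly_eq (g : G) (hg : IsOfFinOrder g) :
    ∃ s : G, s ∈ Subgroup.zpowers g ∧ (orderOf s).Coprime p ∧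
      ∀ (ρ : G →* Module.End k V), (ρ g).charpoly = (ρ s).charpoly :=
  ⟨regPart p g, regPart_mem_zpowers p g, orderOf_regPart_coprime p g hg,
    fun ρ => charpoly_map_eq_charpoly_map_regPart p ρ g hg⟩

end RepPart

end Fermat.Agent.TW.Euler.CharpolyReg
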